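/-
S44, block X4 DESC (owner helper236): every place of `F` extends to a finite separable extension.
-/
import Mathlib
import Fermat.Prelude.Def_AlgebraicCurve_DivisorPushPull
import Fermat.Agent.S24.FFDict

set_option autoImplicit false

namespace Fermat.Agent.S44.X.Desc

open AlgebraicCurve Fermat.Agent.S24.FF IsDedekindDomain

variable {K F : Type*} (F' : Type*) [Field K] [Field F] [Field F'] [Algebra K F] [Algebra K F']
  [Algebra F F'] [IsScalarTower K F F'] (v : Place K F)

theorem isScalarTower_Ov : IsScalarTower K v.toValuationSubring F' :=
  IsScalarTower.of_algebraMap_eq fun a => by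
    rw [IsScalarTower.algebraMap_apply K F F']
    rfl

variable {F'} in
/-- A place of `F'` whose valuation ring contains `O_v` lies over `v`. -/
theorem restrict_eq_of_mem [Algebra.IsIntegral F F'] {w : Place K F'}
    (hw : ∀ a : v.toValuationSubring, algebraMap F F' (a : F) ∈ w.toValuationSubring) :
    w.restrict F = v := by
  apply Place.ext
  symm
  refine ValuationSubring.eq_of_le_of_ne_top _ ?_ (w.restrict F).ne_top'
  intro a ha
  exact (Place.mem_restrict_iff w).mpr (hw ⟨a, ha⟩)

/-- **Going up for places**: every place of `F` is the restriction of a place of `F'`. -/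
theorem exists_restrict_eq [FiniteDimensional F F'] [Algebra.IsSeparable F F'] :
    ∃ w : Place K F', w.restrict F = v := by
  have hst : IsScalarTower K v.toValuationSubring F' := isScalarTower_Ov F' v
  let B : Subalgebra v.toValuationSubring F' := integralClosure v.toValuationSubring F'
  have hD : IsDedekindDomain B := integralClosure.isDedekindDomain v.toValuationSubring F F'
  have hFr : IsFractionRing B F' := integralClosure.isFractionRing_of_finite_extension F F'
  -- `B` is not a field
  have hnf : ¬ IsField B := by
    intro hf
    have hint : Algebra.IsIntegral v.toValuationSubring B := inferInstance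
    have hinj : Function.Injective (algebraMap v.toValuationSubring B) := by
      intro a b hab
      have h1 := congrArg (algebraMap B F') hab
      rw [← IsScalarTower.algebraMap_apply, ← IsScalarTower.algebraMap_apply,
        IsScalarTower.algebraMap_apply v.toValuationSubring F F',
        IsScalarTower.algebraMap_apply v.toValuationSubring F F'] at h1
      exact Subtype.ext ((algebraMap F F').injective h1)
    have := (Algebra.IsIntegral.isField_iff_isField hinj).2 hf
    exact ValuationSubring.not_isField_of_ne_top F v.ne_top' this
  obtain ⟨M, hM⟩ := Ideal.exists_maximal B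
  have hM0 : M ≠ ⊥ := by
    rintro rfl
    exact hnf (Ring.isField_iff_maximal_bot.2 hM)
  let P : HeightOneSpectrum B := ⟨M, hM.isPrime, hM0⟩
  refine ⟨Place.ofHeightOneSpectrum (K := K) P, restrict_eq_of_mem v fun a => ?_⟩
  have h := algebraMap_mem_ofHeightOneSpectrum (K := K) (F := F') P (algebraMap _ B a)
  rwa [← IsScalarTower.algebraMap_apply, IsScalarTower.algebraMap_apply v.toValuationSubring F F']
    at h

end Fermat.Agent.S44.X.Desc
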