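/-
S44, block X4 DESC (owner helper236): the ramification index is at most the degree.
-/
import Mathlib
import Fermat.Prelude.Def_AlgebraicCurve_DivisorPushPull
import Fermat.Agent.S24.FFBasic

set_option autoImplicit false

namespace Fermat.Agent.S44.X.Desc

open AlgebraicCurve Fermat.Agent.S24.FF Polynomial WithZero

variable {K F F' : Type*} [Field K] [Field F] [Field F'] [Algebra K F] [Algebra K F']
  [Algebra F F'] [IsScalarTower K F F']

/-- A finite sum of nonzero terms with pairwise distinct orders does not vanish. -/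
theorem sum_ne_zero_of_ord_injOn (w : Place K F') {ι : Type*} (s : Finset ι) (hs : s.Nonempty)
    (t : ι → F') (ht : ∀ i ∈ s, t i ≠ 0) (hinj : Set.InjOn (fun i => w.ord (t i)) s) :
    ∑ i ∈ s, t i ≠ 0 := by
  classical
  intro h0
  obtain ⟨i₀, hi₀, hmin⟩ := Finset.exists_min_image s (fun i => w.ord (t i)) hs
  have hlt : ∀ i ∈ s.erase i₀, w.adicValuation (t i) < w.adicValuation (t i₀) := by
    intro i hi
    obtain ⟨hne, his⟩ := Finset.mem_erase.1 hi
    rw [adicValuation_eq_exp_neg_ord w (ht i his), adicValuation_eq_exp_neg_ord w (ht i₀ hi₀),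
      exp_lt_exp]
    have h1 := hmin i his
    have h2 : w.ord (t i) ≠ w.ord (t i₀) := fun h => hne (hinj his hi₀ h)
    omega
  have hsum := w.adicValuation.map_sum_lt (w.adicValuation_ne_zero (ht i₀ hi₀)) hlt
  rw [← Finset.add_sum_erase s t hi₀] at h0
  have h3 : ∑ i ∈ s.erase i₀, t i = - t i₀ := by
    rw [eq_neg_iff_add_eq_zero, add_comm]
    exact h0
  rw [h3, Valuation.map_neg] at hsum
  exact lt_irrefl _ hsum

/-- **`e ≤ n`.** -/
theorem ramificationIndex_le_finrank [FiniteDimensional F F'] (w : Place K F') :
    w.ramificationIndex F ≤ Module.finrank F F' := by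
  by_contra hlt
  rw [not_le] at hlt
  obtain ⟨π, hπ⟩ := exists_ord_eq_one w
  have hπ0 : π ≠ 0 := ne_zero_of_ord_ne_zero w (by rw [hπ]; exact one_ne_zero)
  have hint : IsIntegral F π := Algebra.IsIntegral.isIntegral π
  have hdeg : (minpoly F π).natDegree < w.ramificationIndex F :=
    lt_of_le_of_lt (minpoly.natDegree_le π) hlt
  have hP0 : minpoly F π ≠ 0 := minpoly.ne_zero hint
  have hroot : aeval π (minpoly F π) = 0 := minpoly.aeval F π
  rw [aeval_def, eval₂_eq_sum, Polynomial.sum_def] at hroot
  refine sum_ne_zero_of_ord_injOn w (minpoly F π).support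
    (nonempty_support_iff.2 hP0) (fun i => algebraMap F F' ((minpoly F π).coeff i) * π ^ i)
    ?_ ?_ hroot
  · intro i hi
    have : (minpoly F π).coeff i ≠ 0 := mem_support_iff.1 hi
    exact mul_ne_zero (by simpa using this) (pow_ne_zero _ hπ0)
  · intro i hi j hj hij
    have hi0 : algebraMap F F' ((minpoly F π).coeff i) ≠ 0 := by
      simpa using mem_support_iff.1 hi
    have hj0 : algebraMap F F' ((minpoly F π).coeff j) ≠ 0 := by
      simpa using mem_support_iff.1 hj
    simp only at hij
    rw [w.ord_mul hi0 (pow_ne_zero _ hπ0), w.ord_mul hj0 (pow_ne_zero _ hπ0), ord_pow, ord_pow,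
      hπ, w.ord_restrict, w.ord_restrict, mul_one, mul_one] at hij
    have hi1 : i < w.ramificationIndex F := lt_of_le_of_lt (le_natDegree_of_mem_supp i hi) hdeg
    have hj1 : j < w.ramificationIndex F := lt_of_le_of_lt (le_natDegree_of_mem_supp j hj) hdeg
    generalize (w.restrict F).ord ((minpoly F π).coeff i) = a at hij
    generalize (w.restrict F).ord ((minpoly F π).coeff j) = b at hij
    generalize w.ramificationIndex F = e at *
    have hab : a = b := by
      by_contra hne
      rcases lt_or_gt_of_ne hne with h | h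
      · have : (e : ℤ) * (a + 1) ≤ e * b := by
          apply mul_le_mul_of_nonneg_left (by omega) (by positivity)
        have hi2 : (i : ℤ) < e := by exact_mod_cast hi1
        have hj2 : (0 : ℤ) ≤ j := by positivity
        nlinarith
      · have : (e : ℤ) * (b + 1) ≤ e * a := by
          apply mul_le_mul_of_nonneg_left (by omega) (by positivity)
        have hj2 : (j : ℤ) < e := by exact_mod_cast hj1
        have hi2 : (0 : ℤ) ≤ i := by positivity
        nlinarith
    subst hab
    omega

end Fermat.Agent.S44.X.Desc
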