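/-
S44, block X4 DESC (owner helper236): descent of `p ∣ ord` along extensions of degree `< p`,
and along towers of "cubic steps" inside an ambient field.
-/
import Mathlib
import Fermat.Prelude.Def_AlgebraicCurve_Correspondence
import Fermat.Agent.S44.X.Desc.Above
import Fermat.Agent.S44.X.Desc.RamLe

set_option autoImplicit false

noncomputable section

namespace Fermat.Agent.S44.X.Desc

open AlgebraicCurve Polynomial

section Abstract

variable {K F F' : Type*} [Field K] [Field F] [Field F'] [Algebra K F] [Algebra K F']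

/-- **Descent along a separable extension of degree `< p`.** -/
theorem dvd_ord_of_forall_dvd_ord [Algebra F F'] [IsScalarTower K F F'] {p : ℕ} (hp : p.Prime)
    [FiniteDimensional F F'] [Algebra.IsSeparable F F'] (hdeg : Module.finrank F F' < p) (f : F)
    (h : ∀ w : Place K F', (p : ℤ) ∣ w.ord (algebraMap F F' f)) (v : Place K F) :
    (p : ℤ) ∣ v.ord f := by
  obtain ⟨w, rfl⟩ := exists_restrict_eq F' v
  have h1 := h w
  rw [w.ord_restrict] at h1
  have he : ¬ (p : ℤ) ∣ (w.ramificationIndex F : ℤ) := by
    intro hd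
    have hd' : p ∣ w.ramificationIndex F := by exact_mod_cast hd
    have h2 := Nat.le_of_dvd (w.ramificationIndex_pos (F := F)) hd'
    have h3 := ramificationIndex_le_finrank (F := F) w
    omega
  exact ((Nat.prime_iff_prime_int.1 hp).dvd_or_dvd h1).resolve_left he

/-- Divisibility of all orders goes up along any integral homomorphism. -/
theorem dvd_ord_algHom (φ : F →ₐ[K] F') (hφ : φ.toRingHom.IsIntegral) {p : ℤ} (f : F)
    (h : ∀ v : Place K F, p ∣ v.ord f) (w : Place K F') : p ∣ w.ord (φ f) := by
  rw [Place.ord_restrictAlong φ hφ]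
  exact Dvd.dvd.mul_left (h _) _

end Abstract

section Inter

variable {K Ω : Type*} [Field K] [Field Ω] [Algebra K Ω]

/-- `p` divides the order of `f` at all places of the intermediate field `E`. -/
def DivAll (p : ℕ) (E : IntermediateField K Ω) (f : Ω) : Prop :=
  ∀ (hf : f ∈ E) (v : Place K E), (p : ℤ) ∣ v.ord ⟨f, hf⟩

/-- `E(y)` as an intermediate field of `Ω / K`. -/
def ext (E : IntermediateField K Ω) (y : Ω) : IntermediateField K Ω :=
  (IntermediateField.adjoin E {y}).restrictScalars K

theorem le_ext (E : IntermediateField K Ω) (y : Ω) : E ≤ ext E y := by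
  intro x hx
  exact (IntermediateField.adjoin E {y}).algebraMap_mem ⟨x, hx⟩

theorem mem_ext_self (E : IntermediateField K Ω) (y : Ω) : y ∈ ext E y :=
  IntermediateField.mem_adjoin_simple_self E y

theorem ext_le {E B : IntermediateField K Ω} {y : Ω} (h : E ≤ B) (hy : y ∈ B) : ext E y ≤ B := by
  have h1 : IntermediateField.adjoin E {y} ≤ IntermediateField.extendScalars h := by
    rw [IntermediateField.adjoin_le_iff]
    rintro _ rfl
    exact hy
  intro x hx
  exact h1 hx

/-- the identity `E(y) → E(y)` between the two incarnations of `E(y)` -/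
def extToAdjoin (E : IntermediateField K Ω) (y : Ω) :
    ↥(ext E y) →ₐ[K] ↥(IntermediateField.adjoin E {y}) where
  toFun x := ⟨x.1, x.2⟩
  map_one' := rfl
  map_mul' _ _ := rfl
  map_zero' := rfl
  map_add' _ _ := rfl
  commutes' _ := rfl

theorem extToAdjoin_isIntegral (E : IntermediateField K Ω) (y : Ω) :
    (extToAdjoin E y).toRingHom.IsIntegral := by
  intro x
  have : x = (extToAdjoin E y).toRingHom ⟨x.1, x.2⟩ := rfl
  rw [this]
  exact RingHom.isIntegralElem_map _

/-- an irreducible polynomial of degree `< p` in characteristic `p` is separable -/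
theorem separable_of_natDegree_lt {E : Type*} [Field E] (p : ℕ) [CharP E p] {P : E[X]}
    (hP : Irreducible P) (hdeg : P.natDegree < p) : P.Separable := by
  rw [separable_iff_derivative_ne_zero hP]
  intro h0
  have hpos : 0 < P.natDegree := hP.natDegree_pos
  have h1 := congrArg (fun Q => Q.coeff (P.natDegree - 1)) h0
  simp only [coeff_derivative, coeff_zero] at h1
  rw [Nat.sub_add_cancel hpos] at h1
  have h2 : P.coeff P.natDegree ≠ 0 := by
    rw [coeff_natDegree, leadingCoeff_ne_zero]
    exact hP.ne_zero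
  have h3 : (((P.natDegree - 1 : ℕ) : E) + 1) = ((P.natDegree : ℕ) : E) := by
    rw [← Nat.cast_succ, Nat.succ_eq_add_one, Nat.sub_add_cancel hpos]
  rw [h3] at h1
  have h4 : ((P.natDegree : ℕ) : E) = 0 := (mul_eq_zero.1 h1).resolve_left h2
  rw [CharP.cast_eq_zero_iff E p] at h4
  exact absurd (Nat.le_of_dvd hpos h4) (by omega)

/-- **A cubic step.** -/
theorem DivAll.of_ext {p : ℕ} (hp : p.Prime) (h3 : 3 < p) [CharP K p]
    {E : IntermediateField K Ω} {y a : Ω} (ha : a ∈ E) (hy : (1 + 256 * y) ^ 3 = a * y) {f : Ω}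
    (h : DivAll p (ext E y) f) : DivAll p E f := by
  intro hf v
  have hchar : CharP E p := charP_of_injective_algebraMap (algebraMap K E).injective p
  -- the cubic polynomial
  obtain ⟨P, hPdef⟩ : ∃ P : (↥E)[X], P = (1 + 256 * X) ^ 3 - C (⟨a, ha⟩ : E) * X := ⟨_, rfl⟩
  have hroot : aeval y P = 0 := by
    rw [hPdef]
    simp only [map_sub, map_pow, map_add, map_one, map_mul, aeval_X, aeval_C, map_ofNat]
    rw [hy]
    exact sub_self _
  have hP0 : P ≠ 0 := by
    intro h0
    have h1 := congrArg (fun Q => Q.coeff 0) h0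
    rw [hPdef] at h1
    simp [coeff_zero_eq_eval_zero] at h1
  have hPdeg : P.natDegree ≤ 3 := by
    rw [hPdef]
    compute_degree
  have hint : IsIntegral E y := isAlgebraic_iff_isIntegral.1 ⟨P, hP0, hroot⟩
  have hmin : (minpoly E y).natDegree ≤ 3 :=
    (natDegree_le_of_dvd (minpoly.dvd E y hroot) hP0).trans hPdeg
  have hfd : FiniteDimensional E (IntermediateField.adjoin E {y}) :=
    IntermediateField.adjoin.finiteDimensional hint
  have hsep : Algebra.IsSeparable E (IntermediateField.adjoin E {y}) :=
    (IntermediateField.isSeparable_adjoin_simple_iff_isSeparable E Ω).2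
      (separable_of_natDegree_lt p (minpoly.irreducible hint) (by omega))
  have hfin : Module.finrank E (IntermediateField.adjoin E {y}) < p := by
    rw [IntermediateField.adjoin.finrank hint]
    omega
  refine dvd_ord_of_forall_dvd_ord (K := K) (F' := ↥(IntermediateField.adjoin E {y})) hp hfin
    ⟨f, hf⟩ (fun w => ?_) v
  exact dvd_ord_algHom (extToAdjoin E y) (extToAdjoin_isIntegral E y)
    (⟨f, le_ext E y hf⟩ : ↥(ext E y)) (fun v' => h _ v') w

/-- **A tower of cubic steps.**  `B` is generated over `E` by the elements of the list `l`. -/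
theorem DivAll.of_tower {p : ℕ} (hp : p.Prime) (h3 : 3 < p) [CharP K p] {f : Ω} (l : List Ω) :
    ∀ (E B : IntermediateField K Ω), (∀ y ∈ l, ∃ a ∈ E, (1 + 256 * y) ^ 3 = a * y) →
      (∀ B' : IntermediateField K Ω, E ≤ B' → (∀ y ∈ l, y ∈ B') → B ≤ B') → E ≤ B →
      (∀ y ∈ l, y ∈ B) → DivAll p B f → DivAll p E f := by
  induction l with
  | nil =>
    intro E B _ hgen hEB _ h
    have hBE : B = E := le_antisymm (hgen E le_rfl (by simp)) hEB
    rwa [hBE] at h
  | cons y l ih =>
    intro E B hcub hgen hEB hl h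
    obtain ⟨a, ha, hy⟩ := hcub y (by simp)
    refine DivAll.of_ext hp h3 ha hy ?_
    refine ih (ext E y) B ?_ ?_ (ext_le hEB (hl y (by simp))) (fun z hz => hl z (by simp [hz])) h
    · intro z hz
      obtain ⟨b, hb, hz'⟩ := hcub z (by simp [hz])
      exact ⟨b, le_ext E y hb, hz'⟩
    · intro B' hB' hl'
      refine hgen B' ((le_ext E y).trans hB') ?_
      intro z hz
      rcases List.mem_cons.1 hz with rfl | hz
      · exact hB' (mem_ext_self E z)
      · exact hl' z hz

end Inter

end Fermat.Agent.S44.X.Desc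

end
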