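/-
S44, block X4 DESC (owner helper236): the function field of `X₀(2 M)` is a tower of cubic steps over
the function field of `X₀(M)`, in every characteristic (Hauptmodul `h₂` of `X₀(2)`).
-/
import Fermat.Agent.S44.X.Desc.Step
import Fermat.Agent.Lib.Hauptmodul.AnyRing
import Fermat.Prelude.Def_ModularCurve_X0ModL

set_option autoImplicit false

noncomputable section

namespace Fermat.Agent.S44.X.Desc

open AlgebraicCurve ModularCurve Fermat.Agent.Lib.Hauptmodul

variable (K : Type*) [Field K]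

theorem qExpand_congr {a b : ℕ} [NeZero a] [NeZero b] (h : a = b) (x : LaurentSeries K) :
    qExpand K a x = qExpand K b x := by
  subst h
  rfl

/-- `h₂(q^e)` -/
def y2 (e : ℕ) [NeZero e] : LaurentSeries K := qExpand K e (toL K h2Z)

theorem y2_ne_zero (e : ℕ) [NeZero e] : y2 K e ≠ 0 := by
  unfold y2
  rw [Ne, map_eq_zero_iff _ (qExpand K e).injective]
  exact toL_h2Z_ne_zero K

/-- `(1 + 256 h₂(q^e))³ = j(q^e) h₂(q^e)` -/
theorem y2_cubic (e : ℕ) [NeZero e] :
    (1 + 256 * y2 K e) ^ 3 = qExpand K e (jqModC K) * y2 K e := by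
  have h := congrArg (qExpand K e) (jqModC_mul_h2 K)
  simp only [map_mul, map_pow, map_add, map_one, map_ofNat] at h
  exact h.symm

/-- `j(q^(2e)) h₂(q^e)² = (1 + 16 h₂(q^e))³` -/
theorem y2_double (e : ℕ) [NeZero e] :
    qExpand K (e * 2) (jqModC K) * y2 K e ^ 2 = (1 + 16 * y2 K e) ^ 3 := by
  have h := congrArg (qExpand K e) (jqNModC_two_mul_h2 K)
  simp only [map_mul, map_pow, map_add, map_one, map_ofNat] at h
  rw [jqNModC, qExpand_qExpand] at h
  exact h

theorem y2_mem (e M : ℕ) [NeZero e] [NeZero M] (h : e ∣ M) :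
    y2 K e ∈ modularFunctionFieldFullC K (M * 2) := by
  have h0 : toL K h2Z ∈ modularFunctionFieldFullC K 2 :=
    modularFunctionFieldC_le_full K 2 (toL_h2Z_mem K)
  have h1 : y2 K e ∈ (modularFunctionFieldFullC K 2).map (qExpandAlgHomC K e) :=
    ⟨_, h0, rfl⟩
  have h2 := full_degeneracyC_map_le K 2 e h1
  exact full_degeneracyC_le K (by rw [mul_comm]; exact Nat.mul_dvd_mul_right h 2) h2

/-- the set of generators `h₂(q^e)`, `e ∣ M` -/
def gens (M : ℕ) : Set (LaurentSeries K) :=
  {y | ∃ (e : ℕ) (_ : NeZero e), e ∣ M ∧ y = y2 K e}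

theorem gens_finite (M : ℕ) [NeZero M] : (gens K M).Finite := by
  classical
  let g : ℕ → LaurentSeries K := fun e =>
    if h : e = 0 then 0 else (haveI : NeZero e := ⟨h⟩; y2 K e)
  refine Set.Finite.subset ((Finset.finite_toSet M.divisors).image g) ?_
  rintro _ ⟨e, he, hd, rfl⟩
  refine ⟨e, ?_, ?_⟩
  · simpa using ⟨hd, NeZero.ne M⟩
  · show (if h : e = 0 then 0 else _) = _
    rw [dif_neg (NeZero.ne e)]

/-- a set version of the tower lemma -/
theorem DivAll.of_finite {Ω : Type*} [Field Ω] [Algebra K Ω] {p : ℕ} (hp : p.Prime) (h3 : 3 < p)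
    [CharP K p] {f : Ω} {S : Set Ω} (hS : S.Finite) (E B : IntermediateField K Ω)
    (hcub : ∀ y ∈ S, ∃ a ∈ E, (1 + 256 * y) ^ 3 = a * y)
    (hgen : ∀ B' : IntermediateField K Ω, E ≤ B' → (∀ y ∈ S, y ∈ B') → B ≤ B') (hEB : E ≤ B)
    (hSB : ∀ y ∈ S, y ∈ B) (h : DivAll p B f) : DivAll p E f := by
  have hmem : ∀ y, y ∈ hS.toFinset.toList ↔ y ∈ S := fun y => by simp
  refine DivAll.of_tower hp h3 hS.toFinset.toList E B (fun y hy => hcub y ((hmem y).1 hy)) ?_ hEB
    (fun y hy => hSB y ((hmem y).1 hy)) h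
  intro B' hB' hl
  exact hgen B' hB' fun y hy => hl y ((hmem y).2 hy)

/-- **Descent from level `2 M` to level `M`.** -/
theorem divAll_double {p : ℕ} (hp : p.Prime) (h3 : 3 < p) [CharP K p] (M : ℕ) [NeZero M]
    {f : LaurentSeries K} (h : DivAll p (modularFunctionFieldFullC K (M * 2)) f) :
    DivAll p (modularFunctionFieldFullC K M) f := by
  refine DivAll.of_finite K hp h3 (gens_finite K M) _ _ ?_ ?_
    (full_degeneracyC_le K (dvd_mul_right M 2)) ?_ h
  · rintro _ ⟨e, he, hd, rfl⟩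
    exact ⟨_, jqModCd_mem_full K M hd, y2_cubic K e⟩
  · intro B' hB' hy
    rw [modularFunctionFieldFullC, IntermediateField.adjoin_le_iff]
    rintro _ ⟨d, hd0, hd, rfl⟩
    by_cases hdM : d ∣ M
    · exact hB' (jqModCd_mem_full K M hdM)
    · -- `d = 2 e` with `e ∣ M`
      have h2d : 2 ∣ d := by
        by_contra h2
        have hcop : Nat.Coprime d 2 :=
          (Nat.coprime_comm.1 ((Nat.Prime.coprime_iff_not_dvd Nat.prime_two).2 h2))
        exact hdM (hcop.dvd_of_dvd_mul_right hd)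
      obtain ⟨e, rfl⟩ := h2d
      have he0 : e ≠ 0 := by
        rintro rfl
        exact NeZero.ne (2 * 0) rfl
      have : NeZero e := ⟨he0⟩
      have heM : e ∣ M := by
        rw [mul_comm M 2] at hd
        exact Nat.dvd_of_mul_dvd_mul_left (by norm_num) hd
      have hye : y2 K e ∈ B' := hy _ ⟨e, inferInstance, heM, rfl⟩
      have hrel := y2_double K e
      have hy0 := y2_ne_zero K e
      have hj : qExpand K (e * 2) (jqModC K) = (1 + 16 * y2 K e) ^ 3 / y2 K e ^ 2 := by
        rw [eq_div_iff (pow_ne_zero 2 hy0), hrel]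
      have hcomm : qExpand K (2 * e) (jqModC K) = qExpand K (e * 2) (jqModC K) :=
        qExpand_congr K (mul_comm 2 e) _
      show qExpand K (2 * e) (jqModC K) ∈ B'
      rw [hcomm, hj]
      have h16 : (16 : LaurentSeries K) ∈ B' := ofNat_mem_intermediateField K B' 16
      exact div_mem (pow_mem (add_mem (one_mem _) (mul_mem h16 hye)) 3) (pow_mem hye 2)
  · rintro _ ⟨e, he, hd, rfl⟩
    exact y2_mem K e M hd

/-- **Descent from level `4 M` to level `M`.** -/
theorem divAll_four {p : ℕ} (hp : p.Prime) (h3 : 3 < p) [CharP K p] (M : ℕ) [NeZero M]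
    {f : LaurentSeries K} (h : DivAll p (modularFunctionFieldFullC K (M * 4)) f) :
    DivAll p (modularFunctionFieldFullC K M) f := by
  apply divAll_double K hp h3 M
  apply divAll_double K hp h3 (M * 2)
  rwa [Nat.mul_assoc]

end Fermat.Agent.S44.X.Desc

end
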