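/-
S44, block X4 DESC (owner helper236): `NodeDesc` is proved.
-/
import Fermat.Agent.S44.X.Top
import Fermat.Agent.S44.X.Desc.Modular

set_option autoImplicit false

noncomputable section

namespace Fermat.Agent.S44.X.Desc

open AlgebraicCurve ModularCurve

/-- the residue field of a valuation ring over `p` has characteristic `p` -/
theorem charP_kA {p : ℕ} (hp : p.Prime) (A : ValuationSubring Qb) (hA : A.LiesOverPrime p) :
    CharP (kA A) p := by
  have h0 : ((p : ℕ) : kA A) = 0 := by
    have h1 : IsLocalRing.residue A (p : A) = 0 := by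
      rw [IsLocalRing.residue_eq_zero_iff]
      obtain ⟨ha, hm⟩ := ValuationSubring.mem_nonunits_iff_exists_mem_maximalIdeal.1 hA
      have : (⟨(p : Qb), ha⟩ : A) = (p : A) := Subtype.ext (by simp)
      rwa [this] at hm
    rw [map_natCast] at h1
    exact h1
  exact (CharP.charP_iff_prime_eq_zero hp).mpr h0

/-- **Node Desc.** -/
theorem nodeDesc : NodeDesc := by
  intro p M' _ hp h5 _ A hA f h v
  have hchar : CharP (kA A) p := charP_kA hp A hA
  have key : DivAll p (modularFunctionFieldFullC (kA A) (M' * 4)) (f : LaurentSeries (kA A)) := by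
    intro hf w
    have h1 := h w
    have h2 : inclFk A M' 4 f = ⟨(f : LaurentSeries (kA A)), hf⟩ :=
      Subtype.ext (coe_inclFk A M' 4 f)
    rw [h2] at h1
    exact h1
  exact divAll_four (kA A) hp (by omega) M' key f.2 v

end Fermat.Agent.S44.X.Desc

end
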